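import Fermat.Agent.MW.Divisible
import Fermat.Agent.Mazur.EisensteinComponent.Lattice
import Fermat.Agent.Mono.FiniteLevel

/-!
# Kummer cocycles of division systems

A system of `P`-power division points of a rational point of `J₀(N)` gives a cocycle in the Tate
lattice; it is unramified away from `N` and `P`, and lies in the reduction kernel at `P`.
-/

noncomputable section

open ModularCurve CongruenceSubgroup

namespace Fermat.Agent.Mazur

local notation "Qbar" => AlgebraicClosure ℚ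
local notation "Γℚ" => AlgebraicClosure ℚ ≃ₐ[ℚ] AlgebraicClosure ℚ

/-- A `P`-division system in an abelian group. -/
def IsSystem {X : Type*} [AddCommGroup X] (P : ℕ) (z : ℕ → X) : Prop := ∀ k, P • z (k + 1) = z k

theorem IsSystem.pow_nsmul {X : Type*} [AddCommGroup X] {P : ℕ} {z : ℕ → X} (h : IsSystem P z) :
    ∀ k, P ^ k • z k = z 0
  | 0 => by rw [pow_zero, one_nsmul]
  | k + 1 => by rw [pow_succ, mul_nsmul', h k, h.pow_nsmul k]

theorem IsSystem.map {X Y : Type*} [AddCommGroup X] [AddCommGroup Y] {P : ℕ} {z : ℕ → X}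
    (h : IsSystem P z) (f : X →+ Y) : IsSystem P (fun k => f (z k)) :=
  fun k => by rw [← map_nsmul, h k]

theorem nsmul_smul_sub {G X : Type*} [Monoid G] [AddCommGroup X] [DistribMulAction G X] (σ : G)
    (n : ℕ) (z : X) : n • (σ • z - z) = σ • (n • z) - n • z := by
  rw [nsmul_sub, smul_comm n σ]

variable {N : ℕ} [NeZero N] {P : ℕ} [Fact P.Prime]

/-- Every point is the start of a division system. -/
theorem exists_system (y : JZero N) : ∃ z : ℕ → JZero N, z 0 = y ∧ IsSystem P z := by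
  choose f hf using fun x : JZero N => MW.exists_nsmul_jZero N (Fact.out : P.Prime).pos x
  exact ⟨fun k => f^[k] y, rfl, fun k =>
    (congrArg (P • ·) (Function.iterate_succ_apply' f k y)).trans (hf _)⟩

variable (M : Attach.TorsionModel N P)

/-- A compatible system of torsion points is a lattice vector. -/
theorem exists_latPt (u : ℕ → JZero N) (hu : IsSystem P u) (h0 : u 0 = 0) :
    ∃ x : Tlat M, ∀ n, ptP M n x = u n := by
  choose x hx using fun n => exists_ptP_eq M n (u n) ((hu.pow_nsmul n).trans h0)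
  let v : Fin M.rk → ℕ → ℤ := fun i n => ((PadicInt.toZModPow n (x n i)).val : ℤ)
  have hdvd : ∀ i n, (P : ℤ) ^ n ∣ v i (n + 1) - v i n := fun i n => by
    have : NeZero (P ^ n) := ⟨pow_ne_zero n (Fact.out : P.Prime).ne_zero⟩
    have : NeZero (P ^ (n + 1)) := ⟨pow_ne_zero (n + 1) (Fact.out : P.Prime).ne_zero⟩
    have h1 : ptP M n (x (n + 1) - x n) = 0 := by
      rw [map_sub, hx n, ← nsmul_ptP_succ, hx (n + 1), hu n, sub_self]
    have h2 := (ptP_eq_zero_iff M n _).mp h1 i
    rw [Pi.sub_apply, map_sub, sub_eq_zero] at h2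
    rw [← Nat.cast_pow, ← ZMod.intCast_zmod_eq_zero_iff_dvd]
    simp only [v, Int.cast_sub, Int.cast_natCast, ZMod.natCast_zmod_val, sub_eq_zero]
    rw [← h2, ← PadicInt.zmod_cast_comp_toZModPow n (n + 1) n.le_succ, RingHom.comp_apply,
      ZMod.castHom_apply, ZMod.cast_eq_val]
  let X : Tlat M := fun i => PadicInt.ofIntSeq _
    (PadicInt.isCauSeq_padicNorm_of_pow_dvd_sub (fun n => v i n) P (hdvd i))
  refine ⟨X, fun n => ?_⟩
  rw [← hx n, ← sub_eq_zero, ← map_sub, ptP_eq_zero_iff]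
  intro i
  have : NeZero (P ^ n) := ⟨pow_ne_zero n (Fact.out : P.Prime).ne_zero⟩
  have h3 : PadicInt.toZModPow n (X i) = (v i n : ZMod (P ^ n)) :=
    PadicInt.toZModPow_ofIntSeq_of_pow_dvd_sub (fun k => v i k) P (hdvd i) n
  rw [Pi.sub_apply, map_sub, h3]
  simp [v]

/-- A system over a rational point. -/
structure RatSystem (N : ℕ) [NeZero N] (P : ℕ) where
  /-- The points. -/
  z : ℕ → JZero N
  isSystem : IsSystem P z
  rational : ∀ σ : Γℚ, σ • z 0 = z 0

theorem exists_delta (s : RatSystem N P) (σ : Γℚ) :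
    ∃ x : Tlat M, ∀ n, ptP M n x = σ • s.z n - s.z n := by
  refine exists_latPt M _ (fun k => ?_) (by rw [s.rational, sub_self])
  exact (nsmul_smul_sub σ P (s.z (k + 1))).trans (by rw [s.isSystem k])

/-- The cocycle of a system. -/
def delta (s : RatSystem N P) (σ : Γℚ) : Tlat M := (exists_delta M s σ).choose

theorem ptP_delta (s : RatSystem N P) (σ : Γℚ) (n : ℕ) :
    ptP M n (delta M s σ) = σ • s.z n - s.z n := (exists_delta M s σ).choose_spec n

theorem delta_eq {s : RatSystem N P} {σ : Γℚ} {x : Tlat M}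
    (h : ∀ n, ptP M n x = σ • s.z n - s.z n) : delta M s σ = x :=
  sub_eq_zero.mp (eq_zero_of_forall_ptP M fun n => by rw [map_sub, ptP_delta, h, sub_self])

theorem delta_mul (s : RatSystem N P) (σ τ : Γℚ) :
    delta M s (σ * τ) = delta M s σ + (M.repPadic σ).mulVec (delta M s τ) :=
  delta_eq M fun n => by
    rw [map_add, ← smul_ptP, ptP_delta, ptP_delta, mul_smul, smul_sub]
    abel

theorem delta_continuous (s : RatSystem N P) (k : ℕ) :
    ∃ E : IntermediateField ℚ Qbar, FiniteDimensional ℚ E ∧ ∀ σ : Γℚ, (∀ a ∈ E, σ a = a) →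
      ∃ y : Tlat M, delta M s σ = ((P : ℤ_[P]) ^ k) • y := by
  obtain ⟨E, hE, h⟩ := Mono.exists_level_jZero (N := N) (s.z k)
  exact ⟨E, hE, fun σ hσ => exists_pow_smul_of_ptP_eq_zero M (by rw [ptP_delta, h σ hσ, sub_self])⟩

theorem delta_red (hred : ReductionFacts N) (s : RatSystem N P) {q : ℕ} (hq : q.Prime)
    (hqN : ¬ q ∣ N) {A : ValuationSubring Qbar} (hA : A.LiesOverPrime q) {σ : Γℚ}
    (hσ : σ ∈ A.inertiaSubgroupIn ℚ) (n : ℕ) :
    reductionModL A N (ptP M n (delta M s σ)) = 0 := by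
  rw [ptP_delta, map_sub, hred.inertia q hq hqN A hA σ hσ, sub_self]

theorem delta_eq_zero_of_inertia (hred : ReductionFacts N) (hinj : ReductionInjective N)
    (s : RatSystem N P) {q : ℕ} (hq : q.Prime) (hqN : ¬ q ∣ N) (hqP : q ≠ P)
    {A : ValuationSubring Qbar} (hA : A.LiesOverPrime q) {σ : Γℚ}
    (hσ : σ ∈ A.inertiaSubgroupIn ℚ) : delta M s σ = 0 :=
  eq_zero_of_forall_ptP M fun n => hinj q hq hqN A hA (P ^ n)
    (fun hd => hqP ((Nat.prime_dvd_prime_iff_eq hq Fact.out).mp (hq.dvd_of_dvd_pow hd))) _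
    (ptP_torsion M n _) (delta_red M hred s hq hqN hA hσ n)

theorem delta_mem_redKer (hred : ReductionFacts N) (s : RatSystem N P) (hPN : ¬ P ∣ N)
    {A : ValuationSubring Qbar} (hA : A.LiesOverPrime P) {σ : Γℚ}
    (hσ : σ ∈ A.inertiaSubgroupIn ℚ) : delta M s σ ∈ redKer M A :=
  fun n => delta_red M hred s Fact.out hPN hA hσ n

end Fermat.Agent.Mazur
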