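import Mathlib.Algebra.Module.Torsion.Free
import Mathlib.GroupTheory.Torsion
import Mathlib.LinearAlgebra.Pi
import Mathlib.LinearAlgebra.Quotient.Basic
import Fermat.Agent.Hecke.GaloisEquivariant
import Fermat.Agent.Mazur.RankZero.Kummer

/-!
# Kummer classes as a module over the Hecke algebra

Classes of division systems modulo coboundaries, their compatibility with Hecke operators, and
their independence for a basis of the rational points modulo torsion.
-/

noncomputable section

open ModularCurve CongruenceSubgroup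

namespace Fermat.Agent.Mazur

local notation "Qbar" => AlgebraicClosure ℚ
local notation "Γℚ" => AlgebraicClosure ℚ ≃ₐ[ℚ] AlgebraicClosure ℚ

variable {N : ℕ} [NeZero N]

/-- The action of the good Hecke polynomials commutes with Galois. -/
theorem jAct_galois (h : HeckeOperatorsCommuteBar N) (t : GoodHecke N) (σ : Γℚ) (x : JZero N) :
    σ • jAct N h t x = jAct N h t (σ • x) := by
  induction t using MvPolynomial.induction_on generalizing x with
  | C a =>
    rw [eq_intCast MvPolynomial.C, map_intCast]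
    rw [show (a : Module.End ℤ (JZero N)) x = a • x from Module.End.intCast_apply (R := ℤ) a x,
      show (a : Module.End ℤ (JZero N)) (σ • x) = a • (σ • x) from
        Module.End.intCast_apply (R := ℤ) a (σ • x)]
    exact map_zsmul (DistribSMul.toAddMonoidHom (JZero N) σ) a x
  | add p q hp hq =>
    rw [map_add, LinearMap.add_apply, LinearMap.add_apply, ← hp, ← hq]
    exact map_add (DistribSMul.toAddMonoidHom (JZero N) σ) _ _
  | mul_X p ℓ hp =>
    rw [map_mul, Module.End.mul_apply, Module.End.mul_apply, hp, jAct_X,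
      Hecke.heckeOperatorBar_galois]

variable {P : ℕ} [Fact P.Prime] (M : Attach.TorsionModel N P) (hG : Attach.TorsionGalois N P)

/-- Coboundaries in functions on the Galois group. -/
def cobd : Submodule (algA M) (Γℚ → Vt M) :=
  LinearMap.range (LinearMap.pi fun σ : Γℚ => galV M hG σ - 1)

theorem mem_cobd {f : Γℚ → Vt M} :
    f ∈ cobd M hG ↔ ∃ w, ∀ σ, galV M hG σ w - w = f σ :=
  ⟨fun ⟨w, hw⟩ => ⟨w, fun σ => congrFun hw σ⟩, fun ⟨w, hw⟩ => ⟨w, funext hw⟩⟩

/-- Functions modulo coboundaries. -/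
abbrev H1 : Type := (Γℚ → Vt M) ⧸ cobd M hG

/-- The Kummer class of a system. -/
def kummerClass (s : RatSystem N P) : H1 M hG := Submodule.Quotient.mk fun σ => toVt M (delta M s σ)

theorem kummerClass_eq_zero_iff (s : RatSystem N P) :
    kummerClass M hG s = 0 ↔ ∃ w, ∀ σ, galV M hG σ w - w = toVt M (delta M s σ) :=
  (Submodule.Quotient.mk_eq_zero _).trans (mem_cobd M hG)

/-- A system over a torsion point has trivial class. -/
theorem kummerClass_eq_zero_of_torsion (s : RatSystem N P)
    (hs : s.z 0 ∈ AddCommGroup.torsion (JZero N)) : kummerClass M hG s = 0 := by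
  obtain ⟨m, hm, hm0⟩ := isOfFinAddOrder_iff_nsmul_eq_zero.mp
    ((AddCommGroup.mem_torsion _).mp hs)
  obtain ⟨w, hw⟩ := exists_latPt M (fun k => m • s.z k)
    (fun k => by rw [← mul_nsmul', mul_comm, mul_nsmul', s.isSystem k]) hm0
  refine (kummerClass_eq_zero_iff M hG s).mpr ⟨(m : ℚ_[P])⁻¹ • toVt M w, fun σ => ?_⟩
  have hσ : (M.repPadic σ).mulVec w - w = m • delta M s σ :=
    sub_eq_zero.mp (eq_zero_of_forall_ptP M fun n => by
      rw [map_sub, map_sub, ← smul_ptP, hw, map_nsmul, ptP_delta, sub_eq_zero]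
      exact (nsmul_smul_sub σ m (s.z n)).symm)
  rw [galV_scalar_smul, galV_toVt, ← smul_sub, ← map_sub, hσ, map_nsmul,
      ← Nat.cast_smul_eq_nsmul ℚ_[P],
    inv_smul_smul₀ (Nat.cast_ne_zero.mpr hm.ne')]

variable (h : HeckeOperatorsCommuteBar N)

/-- The image of a system by a good Hecke polynomial. -/
def RatSystem.mapHecke (t : GoodHecke N) (s : RatSystem N P) : RatSystem N P where
  z k := jAct N h t (s.z k)
  isSystem := s.isSystem.map (jAct N h t).toAddMonoidHom
  rational σ := by rw [jAct_galois, s.rational]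

theorem delta_mapHecke (t : GoodHecke N) (s : RatSystem N P) (σ : Γℚ) :
    delta M (s.mapHecke h t) σ = (matT M (formsEval N t)).mulVec (delta M s σ) :=
  delta_eq M fun n => by
    rw [← jAct_ptP M h, ptP_delta, map_sub, ← jAct_galois]
    rfl

theorem kummerClass_mapHecke (t : GoodHecke N) (s : RatSystem N P) :
    kummerClass M hG (s.mapHecke h t) = toA M (formsEval N t) • kummerClass M hG s := by
  rw [kummerClass, kummerClass, ← Submodule.Quotient.mk_smul]
  congr 1
  funext σ
  rw [Pi.smul_apply, delta_mapHecke, toA_smul_toVt]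

/-- The difference of a system and an integral combination of systems. -/
def RatSystem.subComb {r : ℕ} (s₀ : RatSystem N P) (s : Fin r → RatSystem N P) (μ : Fin r → ℤ) :
    RatSystem N P where
  z k := s₀.z k - ∑ i, μ i • (s i).z k
  isSystem k := by
    rw [nsmul_sub, s₀.isSystem k, Finset.smul_sum]
    congr 1
    refine Finset.sum_congr rfl fun i _ => ?_
    rw [smul_comm P (μ i), (s i).isSystem k]
  rational σ := by
    show DistribSMul.toAddMonoidHom (JZero N) σ _ = _
    rw [map_sub, map_sum]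
    refine congr (congrArg _ (s₀.rational σ)) (Finset.sum_congr rfl fun i _ => ?_)
    rw [map_zsmul]
    exact congrArg (μ i • ·) ((s i).rational σ)

theorem delta_subComb {r : ℕ} (s₀ : RatSystem N P) (s : Fin r → RatSystem N P) (μ : Fin r → ℤ)
    (σ : Γℚ) :
    delta M (s₀.subComb s μ) σ = delta M s₀ σ - ∑ i, μ i • delta M (s i) σ :=
  delta_eq M fun n => by
    show _ = DistribSMul.toAddMonoidHom (JZero N) σ (s₀.z n - ∑ i, μ i • (s i).z n) - _
    rw [map_sub, map_sum, ptP_delta, map_sub, map_sum]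
    simp only [map_zsmul, ptP_delta, zsmul_sub, Finset.sum_sub_distrib]
    show _ = σ • s₀.z n - ∑ i, μ i • (σ • (s i).z n) - (s₀.z n - ∑ i, μ i • (s i).z n)
    abel

/-- A congruence modulo torsion gives a linear relation between classes. -/
theorem kummerClass_eq_sum_of_torsion {r : ℕ} (s₀ : RatSystem N P) (s : Fin r → RatSystem N P)
    (μ : Fin r → ℤ) (hμ : s₀.z 0 - ∑ i, μ i • (s i).z 0 ∈ AddCommGroup.torsion (JZero N)) :
    kummerClass M hG s₀ = ∑ i, (μ i : ℚ_[P]) • kummerClass M hG (s i) := by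
  have h0 := kummerClass_eq_zero_of_torsion M hG (s₀.subComb s μ) hμ
  rw [← sub_eq_zero, ← h0]
  have e : kummerClass M hG (s₀.subComb s μ) =
      kummerClass M hG s₀ - ∑ i, μ i • kummerClass M hG (s i) := by
    simp only [kummerClass, ← Submodule.mkQ_apply, ← map_zsmul, ← map_sum, ← map_sub]
    congr 1
    funext σ
    rw [Pi.sub_apply, Finset.sum_apply, delta_subComb, map_sub, map_sum]
    simp only [map_zsmul, Pi.smul_apply]
  rw [e]
  simp only [Int.cast_smul_eq_zsmul]

/-- Rational points which form a basis modulo torsion. -/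
structure IsRatBasis {r : ℕ} (y : Fin r → JZero N) : Prop where
  rational : ∀ i, ∀ σ : Γℚ, σ • y i = y i
  span : ∀ x : JZero N, (∀ σ : Γℚ, σ • x = x) →
    ∃ n : Fin r → ℤ, x - ∑ i, n i • y i ∈ AddCommGroup.torsion (JZero N)
  indep : ∀ n : Fin r → ℤ, ∑ i, n i • y i ∈ AddCommGroup.torsion (JZero N) → n = 0

include hG in
/-- Kummer injectivity. -/
theorem linearIndependent_kummerClass {r : ℕ} {y : Fin r → JZero N} (hy : IsRatBasis y)
    (s : Fin r → RatSystem N P) (hs : ∀ i, (s i).z 0 = y i) :
    LinearIndependent ℚ_[P] fun i => kummerClass M hG (s i) := by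
  classical
  refine Fintype.linearIndependent_iff.mpr fun c hc => ?_
  have hc' : (fun σ => ∑ i, c i • toVt M (delta M (s i) σ)) ∈ cobd M hG := by
    refine (Submodule.Quotient.mk_eq_zero _).mp ?_
    rw [← hc]
    simp only [kummerClass, ← Submodule.mkQ_apply]
    simp only [← LinearMap.map_smul_of_tower, ← map_sum]
    congr 1
    funext σ
    rw [Finset.sum_apply]
    rfl
  obtain ⟨w, hw⟩ := (mem_cobd M hG).mp hc'
  obtain ⟨a, w₁, hw₁⟩ := exists_pow_smul_eq_toVt M w
  obtain ⟨b, hb⟩ := pow_unbounded_of_one_lt (∑ i, ‖c i‖)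
    (show (1 : ℝ) < P by exact_mod_cast (Fact.out : P.Prime).one_lt)
  have hn : ∀ i, ‖(P : ℚ_[P]) ^ (a + b) * c i‖ ≤ 1 := fun i => by
    rw [norm_mul, norm_pow, Padic.norm_p, inv_pow, inv_mul_le_iff₀
      (pow_pos (by exact_mod_cast (Fact.out : P.Prime).pos) _), mul_one]
    refine ((Finset.single_le_sum (fun j _ => norm_nonneg (c j)) (Finset.mem_univ i)).trans
      hb.le).trans (pow_le_pow_right₀ ?_ (Nat.le_add_left b a))
    exact_mod_cast (Fact.out : P.Prime).one_le
  let c' : Fin r → ℤ_[P] := fun i => ⟨_, hn i⟩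
  set w' : Tlat M := ((P : ℤ_[P]) ^ b) • w₁ with hw'
  have hwV : toVt M w' = ((P : ℚ_[P]) ^ (a + b)) • w := by
    rw [hw', ← pow_smul_toVt, ← hw₁, smul_smul, ← pow_add, add_comm b a]
  have hT : ∀ σ, (M.repPadic σ).mulVec w' - w' = ∑ i, c' i • delta M (s i) σ := fun σ => by
    refine toVt_injective M ?_
    rw [map_sub, ← galV_toVt M hG, hwV, galV_scalar_smul, ← smul_sub, hw σ, Finset.smul_sum,
      map_sum]
    refine Finset.sum_congr rfl fun i _ => ?_
    rw [map_smul, smul_smul, ← algebraMap_smul ℚ_[P] (c' i) (toVt M (delta M (s i) σ))]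
    rfl
  have hzero : ∀ k i, PadicInt.toZModPow k (c' i) = 0 := by
    intro k
    have : NeZero (P ^ k) := ⟨pow_ne_zero k (Fact.out : P.Prime).ne_zero⟩
    set n : Fin r → ℕ := fun i => (PadicInt.toZModPow k (c' i)).val with hn'
    set x := ∑ i, n i • (s i).z k - ptP M k w' with hx
    have hxr : ∀ σ : Γℚ, σ • x = x := fun σ => by
      have h1 := congrArg (ptP M k) (hT σ)
      rw [map_sub, ← smul_ptP, map_sum] at h1
      simp only [ptP_smul, ptP_delta, nsmul_sub, Finset.sum_sub_distrib] at h1
      show DistribSMul.toAddMonoidHom (JZero N) σ x = x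
      rw [hx, map_sub, map_sum]
      simp only [map_nsmul]
      show ∑ i, n i • (σ • (s i).z k) - σ • ptP M k w' = _
      rw [sub_eq_sub_iff_sub_eq_sub]
      exact h1.symm
    obtain ⟨μ, hμ⟩ := hy.span x hxr
    have h2 : (fun i => (n i : ℤ) - (P ^ k : ℕ) * μ i) = 0 := by
      refine hy.indep _ ?_
      have h3 := AddSubgroup.nsmul_mem _ hμ (P ^ k)
      rw [hx, nsmul_sub, nsmul_sub, ptP_torsion, sub_zero, Finset.smul_sum, Finset.smul_sum,
        ← Finset.sum_sub_distrib] at h3
      convert h3 using 1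
      refine Finset.sum_congr rfl fun i _ => ?_
      rw [smul_comm (P ^ k) (n i), (s i).isSystem.pow_nsmul, hs, sub_zsmul, natCast_zsmul,
        mul_zsmul, natCast_zsmul]
      abel
    intro i
    have h4 : ((n i : ℤ) : ZMod (P ^ k)) = (((P ^ k : ℕ) : ℤ) * μ i : ℤ) :=
      congrArg _ (sub_eq_zero.mp (congrFun h2 i))
    rw [Int.cast_mul, Int.cast_natCast, Int.cast_natCast, ZMod.natCast_self, zero_mul,
      ZMod.natCast_zmod_val] at h4
    exact h4
  intro i
  have h5 : c' i = 0 := PadicInt.ext_of_toZModPow.mp fun k => by rw [hzero k i, map_zero]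
  have h6 : (P : ℚ_[P]) ^ (a + b) * c i = 0 := congrArg Subtype.val h5
  exact (mul_eq_zero.mp h6).resolve_left
    (pow_ne_zero _ (by exact_mod_cast (Fact.out : P.Prime).ne_zero))

end Fermat.Agent.Mazur
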