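import Fermat.Agent.Mazur.Descent.Main
import Fermat.Agent.Mazur.EisensteinComponent.DescentData
import Fermat.Agent.Mazur.RankZero.Classes
import Fermat.Agent.Mazur.Tame.Main

/-!
# Rank zero from the descent

The socle element of the Eisenstein component kills every Kummer class; as Kummer classes of a
basis modulo torsion are independent, the rational points of the Eisenstein piece are torsion.
-/

noncomputable section

open ModularCurve CongruenceSubgroup

namespace Fermat.Agent.Mazur

local notation "Qbar" => AlgebraicClosure ℚ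
local notation "Γℚ" => AlgebraicClosure ℚ ≃ₐ[ℚ] AlgebraicClosure ℚ

/-- A finitely generated subgroup has a basis modulo torsion. -/
theorem exists_basis_mod_torsion {X : Type*} [AddCommGroup X] (G : AddSubgroup X)
    (hfg : AddGroup.FG G) : ∃ (r : ℕ) (y : Fin r → X), (∀ i, y i ∈ G) ∧
      (∀ x ∈ G, ∃ n : Fin r → ℤ, x - ∑ i, n i • y i ∈ AddCommGroup.torsion X) ∧
      ∀ n : Fin r → ℤ, ∑ i, n i • y i ∈ AddCommGroup.torsion X → n = 0 := by
  classical
  have : Module.Finite ℤ G := Module.Finite.iff_addGroup_fg.mpr hfg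
  let F := G ⧸ Submodule.torsion ℤ G
  have : Module.Free ℤ F := Module.free_of_finite_type_torsion_free'
  let bs := Module.finBasis ℤ F
  choose g hg using fun i => Submodule.Quotient.mk_surjective (Submodule.torsion ℤ G) (bs i)
  have hmem : ∀ x : G, (x : X) ∈ AddCommGroup.torsion X ↔ x ∈ Submodule.torsion ℤ G := by
    intro x
    rw [AddCommGroup.mem_torsion, Submodule.mem_torsion_iff]
    constructor
    · intro hx
      obtain ⟨m, hm, hm0⟩ := isOfFinAddOrder_iff_nsmul_eq_zero.mp hx
      exact ⟨⟨(m : ℤ), mem_nonZeroDivisors_of_ne_zero (by exact_mod_cast hm.ne')⟩,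
        Subtype.ext ((natCast_zsmul (x : X) m).trans hm0)⟩
    · rintro ⟨⟨a, ha⟩, hax⟩
      exact isOfFinAddOrder_iff_zsmul_eq_zero.mpr
        ⟨a, nonZeroDivisors.ne_zero ha, congrArg Subtype.val hax⟩
  refine ⟨Module.finrank ℤ F, fun i => g i, fun i => (g i).2, fun x hx => ?_, fun n hn => ?_⟩
  · let x' : G := ⟨x, hx⟩
    refine ⟨fun i => bs.repr (Submodule.Quotient.mk x') i, ?_⟩
    have h1 : x' - ∑ i, bs.repr (Submodule.Quotient.mk x') i • g i ∈ Submodule.torsion ℤ G := by
      rw [← Submodule.Quotient.eq, ← Submodule.mkQ_apply, ← Submodule.mkQ_apply, map_sum]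
      simp only [map_zsmul, Submodule.mkQ_apply, hg]
      exact (bs.sum_repr _).symm
    have h2 := (hmem _).mpr h1
    rw [AddSubgroupClass.coe_sub, AddSubmonoidClass.coe_finsetSum] at h2
    simpa only [AddSubgroupClass.coe_zsmul] using h2
  · have h1 : (∑ i, n i • g i) ∈ Submodule.torsion ℤ G := (hmem _).mp (by
      rw [AddSubmonoidClass.coe_finsetSum]
      simpa only [AddSubgroupClass.coe_zsmul] using hn)
    rw [← Submodule.Quotient.mk_eq_zero, ← Submodule.mkQ_apply, map_sum] at h1
    simp only [map_zsmul, Submodule.mkQ_apply, hg] at h1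
    exact funext (Fintype.linearIndependent_iff.mp bs.linearIndependent n h1)

variable {N : ℕ} [NeZero N]

omit [NeZero N] in
/-- A finitely generated group of rational points has a basis modulo torsion. -/
theorem exists_isRatBasis
    (hfg : AddGroup.FG ↥(FixedPoints.addSubgroup Γℚ (JZero N))) :
    ∃ (r : ℕ) (y : Fin r → JZero N), IsRatBasis y := by
  obtain ⟨r, y, h1, h2, h3⟩ := exists_basis_mod_torsion _ hfg
  exact ⟨r, y, fun i σ => h1 i σ, fun x hx => h2 x hx, h3⟩

variable {P : ℕ} [Fact P.Prime] {M : Attach.TorsionModel N P} {hG : Attach.TorsionGalois N P}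

section Selmer

variable {𝔭 : Ideal (algA M)} {A : ValuationSubring Qbar} {hh : HeckeOperatorsCommuteBar N}
  {hker : HeckePreservesKernel N} {hA : A.LiesOverPrime P} {hPN : ¬ P ∣ N}
  {e : algA M} {C : Submodule (algA M) (Vt M)}

/-- The socle element kills every Kummer class. -/
theorem smul_kummerClass_eq_zero (hNp : N.Prime) (hred : ReductionFacts N)
    (hinj : ReductionInjective N)
    (hU : UnipotentInertia N P) (h𝔭 : IsEisPrime M A hh hker hA hPN 𝔭)
    (h : IsComponent M hG 𝔭 A (redKerV M A hh hker hA hPN) e C) (s : RatSystem N P) :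
    e • kummerClass M hG s = 0 := by
  have hNP : N ≠ P := fun hh' => hPN (hh' ▸ dvd_refl _)
  obtain ⟨φP, hφP⟩ := Gal.exists_isFrobeniusAt (Fact.out : P.Prime) hA
  obtain ⟨B, hB⟩ := Gal.exists_liesOverPrime hNp
  have hT : TameInertia N P := tameInertia hNp Fact.out hNP
  have hd := descentData_torV (hG := hG) hNp hred hU hT h𝔭 h hφP hB
  obtain ⟨j, hj⟩ := exists_pow_smul_mem_algR M e
  set r : algA M := ((P : ℚ_[P]) ^ j) • e with hr
  choose y hy using fun σ => algR_smul_toVt M hj (delta M s σ)
  have hry : ∀ v : Vt M, r • v = ((P : ℚ_[P]) ^ j) • (e • v) := fun v => smul_assoc _ _ _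
  have hyW : ∀ σ, y σ ∈ lat M (torV M 𝔭) := fun σ => by
    rw [mem_lat, ← hy, hry]
    exact ((torV M 𝔭).restrictScalars ℚ_[P]).smul_mem _ ((mem_torV M 𝔭).mpr fun p hp => by
      rw [← mul_smul, h.e_kills p hp, zero_smul])
  let c : Γℚ → lat M (torV M 𝔭) := fun σ => ⟨y σ, hyW σ⟩
  have hc : ∀ σ, toVt M (c σ : Tlat M) = r • toVt M (delta M s σ) := fun σ => (hy σ).symm
  have hsel : IsSelmerCocycle N P (lat M (torV M 𝔭)) (rhoL M hG 𝔭) A (latC M 𝔭 C) c := by
    constructor
    case cocycle =>
      intro σ τ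
      refine Subtype.ext (toVt_injective M ?_)
      rw [hc, toVt_coe_add, coe_rhoL, hc, hc, delta_mul, map_add, smul_add, map_smul, galV_toVt]
    case continuous =>
      intro k
      obtain ⟨E, hE, hfix⟩ := delta_continuous M s k
      refine ⟨E, hE, fun σ hσ => ?_⟩
      obtain ⟨z, hz⟩ := hfix σ hσ
      obtain ⟨z', hz'⟩ := algR_smul_toVt M hj z
      refine exists_div_of_toVt_eq (y := z') (toVt_injective M ?_)
      rw [hc, hz, map_smul, map_smul, ← hz', smul_comm]
    case unramified =>
      intro q hq hqN hqP B' hB' σ hσ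
      refine Subtype.ext (toVt_injective M ?_)
      rw [hc, delta_eq_zero_of_inertia M hred hinj s hq
        (fun hd => hqN ((Nat.prime_dvd_prime_iff_eq hq hNp).mp hd)) hqP hB' hσ, map_zero, smul_zero,
        Submodule.coe_zero, map_zero]
    case at_P =>
      intro σ hσ
      rw [mem_latC, hc, hry]
      exact (C.restrictScalars ℚ_[P]).smul_mem _ (h.map_red _
        ((toVt_mem_redKerV_iff M A hh hker hA hPN _).mpr (delta_mem_redKer M hred s hPN hA hσ)))
  obtain ⟨n, hn, m, hm⟩ := descentTheorem N P hNp hNP hT _ _ _ _ _ _ _ hd c hsel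
  have hzero : ((n : ℚ_[P]) * (P : ℚ_[P]) ^ j) • e • kummerClass M hG s = 0 := by
    rw [kummerClass, ← Submodule.Quotient.mk_smul, ← Submodule.Quotient.mk_smul,
      Submodule.Quotient.mk_eq_zero, mem_cobd]
    refine ⟨toVt M (m : Tlat M), fun σ => ?_⟩
    have h1 := congrArg (fun z : lat M (torV M 𝔭) => toVt M (z : Tlat M)) (hm σ)
    simp only [toVt_coe_sub, coe_rhoL] at h1
    rw [Submodule.coe_smul_of_tower, map_nsmul, hc, hry] at h1
    rw [Pi.smul_apply, Pi.smul_apply, mul_smul, Nat.cast_smul_eq_nsmul]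
    exact h1.symm
  have hne : ((n : ℚ_[P]) * (P : ℚ_[P]) ^ j) ≠ 0 := mul_ne_zero (Nat.cast_ne_zero.mpr hn.ne')
    (pow_ne_zero j (by exact_mod_cast (Fact.out : P.Prime).ne_zero))
  rw [← inv_smul_smul₀ hne (e • kummerClass M hG s), hzero, smul_zero]

end Selmer

/-- A linear relation `Σ α_l μ_l = 0` of integral matrices with `α ≠ 0` gives an integral one. -/
theorem exists_int_relation {r : ℕ} {ι : Type*} [Fintype ι] (μ : ι → Fin r → Fin r → ℤ)
    (α : ι → ℚ_[P]) (hα : α ≠ 0) (h : ∀ i j, ∑ l, α l * (μ l i j : ℚ_[P]) = 0) :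
    ∃ n : ι → ℤ, n ≠ 0 ∧ ∀ i j, ∑ l, n l * μ l i j = 0 := by
  by_contra hall
  push Not at hall
  have hli : LinearIndependent ℤ (fun l => fun q : Fin r × Fin r => μ l q.1 q.2) :=
    Fintype.linearIndependent_iff.mpr fun n hn => by
      by_contra hne
      push Not at hne
      obtain ⟨l, hl⟩ := hne
      obtain ⟨i, j, hij⟩ := hall n fun h0 => hl (congrFun h0 l)
      refine hij ?_
      have h1 := congrFun hn (i, j)
      simpa [Finset.sum_apply] using h1
  refine hα (funext (Fintype.linearIndependent_iff.mp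
    (linearIndependent_intCast (L := ℚ_[P]) _ hli) α (funext fun q => ?_)))
  simpa [Finset.sum_apply] using h q.1 q.2

/-- `RankZeroQuotient N` from a component at one auxiliary prime. -/
theorem rankZeroQuotient_of_component {𝔭 : Ideal (algA M)} {A : ValuationSubring Qbar}
    {C₀ C : Submodule (algA M) (Vt M)} {e : algA M} (hc : IsComponent M hG 𝔭 A C₀ e C)
    (hkill : ∀ s : RatSystem N P, e • kummerClass M hG s = 0)
    (hfg : AddGroup.FG ↥(FixedPoints.addSubgroup Γℚ (JZero N))) : RankZeroQuotient N := by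
  classical
  intro h
  have := finite_TGood (N := N)
  have := free_TGood (N := N)
  obtain ⟨r, y, hy⟩ := exists_isRatBasis (N := N) hfg
  let b := Module.Free.chooseBasis ℤ (TGood N)
  choose t ht using fun l => formsEval_surjective (b l)
  choose z hz hzs using fun i => exists_system (P := P) (y i)
  let s : Fin r → RatSystem N P := fun i =>
    ⟨z i, hzs i, fun σ => by rw [hz]; exact hy.rational i σ⟩
  have hs : ∀ i, (s i).z 0 = y i := hz
  choose μ hμ using fun l i => hy.span (jAct N h (t l) (y i))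
    (fun σ => by rw [jAct_galois, hy.rational i σ])
  have hrel : ∀ l i, toA M (b l) • kummerClass M hG (s i) =
      ∑ j, (μ l i j : ℚ_[P]) • kummerClass M hG (s j) := fun l i => by
    rw [← ht l, ← kummerClass_mapHecke M hG h]
    refine kummerClass_eq_sum_of_torsion M hG _ s (μ l i) ?_
    simp only [hs]
    show jAct N h (t l) ((s i).z 0) - _ ∈ _
    rw [hs]
    exact hμ l i
  obtain ⟨α, hα⟩ : ∃ α : _ → ℚ_[P], ∑ l, α l • toA M (b l) = e := by
    have he : (e : Matrix (Fin M.rk) (Fin M.rk) ℚ_[P]) ∈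
        Submodule.span ℚ_[P] (Set.range fun k => matV M (b k)) := by
      rw [span_matV M b]; exact e.2
    obtain ⟨α, hα⟩ := (Submodule.mem_span_range_iff_exists_fun ℚ_[P]).mp he
    refine ⟨α, Subtype.ext ?_⟩
    rw [← hα, AddSubmonoidClass.coe_finsetSum]
    exact Finset.sum_congr rfl fun l _ => rfl
  have hα0 : α ≠ 0 := fun h0 => hc.e_ne (by rw [← hα, h0]; simp)
  have hli := linearIndependent_kummerClass M hG hy s hs
  have hzero : ∀ i j, ∑ l, α l * (μ l i j : ℚ_[P]) = 0 := by
    intro i
    refine Fintype.linearIndependent_iff.mp hli _ ?_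
    rw [← hkill (s i), ← hα, Finset.sum_smul]
    simp only [smul_assoc, hrel, Finset.smul_sum, smul_smul, Finset.sum_smul]
    exact Finset.sum_comm
  obtain ⟨n, hn, hrel0⟩ := exists_int_relation (P := P) μ α hα0 hzero
  refine ⟨∑ l, n l • t l, ?_, fun x hx => ?_⟩
  · intro h0
    rw [map_sum] at h0
    simp only [map_zsmul, ht] at h0
    exact hn (funext (Fintype.linearIndependent_iff.mp b.linearIndependent n h0))
  · have hgen : ∀ i, jAct N h (∑ l, n l • t l) (y i) ∈ AddCommGroup.torsion (JZero N) := by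
      intro i
      have h1 : jAct N h (∑ l, n l • t l) (y i) =
          ∑ l, n l • (jAct N h (t l) (y i) - ∑ j, μ l i j • y j) := by
        have h2 : ∑ l, n l • ∑ j, μ l i j • y j = 0 := by
          simp only [Finset.smul_sum, ← mul_zsmul']
          rw [Finset.sum_comm]
          refine Finset.sum_eq_zero fun j _ => ?_
          rw [← Finset.sum_smul, show (∑ l, μ l i j * n l) = 0 by
            simpa [mul_comm] using hrel0 i j, zero_zsmul]
        simp only [zsmul_sub, Finset.sum_sub_distrib, h2, sub_zero, map_sum, map_zsmul,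
          LinearMap.sum_apply, LinearMap.smul_apply]
      rw [h1]
      exact AddSubgroup.sum_mem _ fun l _ => AddSubgroup.zsmul_mem _ (hμ l i) _
    obtain ⟨a, ha⟩ := hy.span x hx
    have hJ : ∀ u ∈ AddCommGroup.torsion (JZero N),
        jAct N h (∑ l, n l • t l) u ∈ AddCommGroup.torsion (JZero N) := fun u hu =>
      (AddCommGroup.mem_torsion _).mpr
        ((jAct N h (∑ l, n l • t l)).toAddMonoidHom.isOfFinAddOrder
          ((AddCommGroup.mem_torsion _).mp hu))
    have h3 := hJ _ ha
    rw [map_sub, map_sum (jAct N h (∑ l, n l • t l))] at h3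
    have h4 : ∑ i, jAct N h (∑ l, n l • t l) (a i • y i) ∈ AddCommGroup.torsion (JZero N) :=
      AddSubgroup.sum_mem _ fun i _ => by
        rw [map_zsmul]; exact AddSubgroup.zsmul_mem _ (hgen i) _
    have h5 := AddSubgroup.add_mem _ h3 h4
    rw [sub_add_cancel] at h5
    exact isOfFinAddOrder_iff_nsmul_eq_zero.mp ((AddCommGroup.mem_torsion _).mp h5)

/-- The rank zero piece at prime level, from the inputs at one auxiliary prime. -/
theorem rankZeroQuotient_of_inputs (hNp : N.Prime) (hPN : ¬ P ∣ N)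
    (M : Attach.TorsionModel N P) (hG : Attach.TorsionGalois N P) (hR : RankTwoAction N M.hecke)
    (hker : HeckePreservesKernel N) (hred : ReductionFacts N) (hinj : ReductionInjective N)
    (hU : UnipotentInertia N P) (hcusp : CuspClassAt N P)
    (hfg : AddGroup.FG ↥(FixedPoints.addSubgroup Γℚ (JZero N))) : RankZeroQuotient N := by
  intro h
  obtain ⟨A, hA⟩ := Gal.exists_liesOverPrime (Fact.out : P.Prime)
  obtain ⟨𝔭, h𝔭⟩ := exists_isEisPrime M A h hker hA hPN hcusp
  obtain ⟨e, C, hc⟩ := exists_isComponent M hG 𝔭 A h hker hA hPN hred hU hNp h𝔭 hR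
  exact rankZeroQuotient_of_component hc
    (fun s => smul_kummerClass_eq_zero hNp hred hinj hU h𝔭 hc s) hfg h

end Fermat.Agent.Mazur
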