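import Fermat.Agent.EichlerShimura.Galois
import Fermat.Agent.Mazur.EisensteinComponent.Setup
import Fermat.Agent.Red.Genus
import Fermat.Agent.TwoComponent.Inject
import Fermat.Agent.TwoComponent.ModelSemi

/-!
# Unipotent inertia at prime level

Inertia at a prime dividing the level exactly once acts unipotently on the torsion of `J₀` of
order prime to it.
-/

noncomputable section

open ModularCurve AlgebraicCurve

namespace Fermat.Agent.Mazur

local notation "Qbar" => AlgebraicClosure ℚ
local notation "Γℚ" => AlgebraicClosure ℚ ≃ₐ[ℚ] AlgebraicClosure ℚ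

/-- Inertia at `q ∥ M q` on the torsion prime to `q`. -/
theorem inertia_smul_sub (M q : ℕ) [NeZero M] [Fact q.Prime] (hqM : ¬ q ∣ M)
    {A : ValuationSubring Qbar} (hA : A.LiesOverPrime q) {σ : Γℚ}
    (hσ : σ ∈ A.inertiaSubgroupIn ℚ) {m : ℕ} (hm : 0 < m) (hmq : ¬ q ∣ m)
    {x : JZero (M * q)} (hx : m • x = 0) : σ • (σ • x - x) = σ • x - x := by
  have := Red.charP_residueField A hA
  have := Red.isAlgClosed_residueField A
  have hres := TwoComponent.residueAt q hA
  have hgen := Red.genus_le (N := M) A hqM hA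
  have hInd := EichlerShimura.inducesOn_refl_of_inertia hσ
  have hnt : ∃ t : A, t ≠ 0 ∧ IsLocalRing.residue A t = 0 := by
    refine ⟨(q : A), fun h => ?_, by rw [map_natCast, CharP.cast_eq_zero]⟩
    have h1 := congrArg Subtype.val h
    rw [ZeroMemClass.coe_zero, show ((q : A) : Qbar) = (q : Qbar) from
        map_natCast A.subtype q] at h1
    exact (Fact.out : q.Prime).ne_zero (Nat.cast_eq_zero.mp h1)
  have hmk : (m : IsLocalRing.ResidueField A) ≠ 0 := fun h =>
    hmq ((CharP.cast_eq_zero_iff _ q m).mp h)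
  exact TwoComponent.SemiRed.smul_sub_eq (TwoComponent.modelSemiRed M q hqM hres hgen hInd)
    (TwoComponent.modelSemiRed M q hqM hres hgen hInd)
    (TwoComponent.modelSemiRed_isInertial M q hqM hres hgen hInd)
    (TwoComponent.modelSemiRed_isInertial M q hqM hres hgen hInd) hm hmk hnt hx

/-- Unipotent inertia at prime level. -/
theorem unipotentInertia (N : ℕ) [NeZero N] (hN : N.Prime) {P : ℕ} (hP : P.Prime) (hPN : ¬ P ∣ N) :
    UnipotentInertia N P := by
  intro A hA σ hσ x hx
  obtain ⟨n, hn⟩ := hx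
  have : Fact N.Prime := ⟨hN⟩
  have key : ∀ (L : ℕ) [NeZero L], L = 1 * N → ∀ y : JZero L, P ^ n • y = 0 →
      σ • (σ • y - y) = σ • y - y := by
    intro L _ hL y hy
    subst hL
    exact inertia_smul_sub 1 N (fun h => hN.ne_one (Nat.dvd_one.mp h)) hA hσ
      (pow_pos hP.pos n) (fun h => hPN (by
        rw [(Nat.prime_dvd_prime_iff_eq hN hP).mp (hN.dvd_of_dvd_pow h)])) hy
  have h1 := key N (one_mul N).symm x hn
  have h2 : σ • σ • x - σ • x = σ • x - x := (smul_sub σ (σ • x) x).symm.trans h1
  rw [← sub_eq_zero] at h2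
  rw [← h2]
  abel

end Fermat.Agent.Mazur
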