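import Fermat.Agent.Attach.GaloisInputs
import Fermat.Agent.Attach.Model
import Fermat.Agent.EichlerShimura.MainGenus
import Fermat.Agent.Mazur.CuspClass.Main
import Fermat.Agent.Mazur.Kernel.Main
import Fermat.Agent.Mazur.RankZero.Main
import Fermat.Agent.Mazur.RankZero.Unipotent
import Fermat.Agent.S17
import Fermat.Agent.S18

/-!
# Rank zero at prime level

The Eisenstein piece of `J₀(N)` has finitely many rational points for prime `N ≥ 11`, `N ≠ 13`,
with all inputs discharged.
-/

noncomputable section

open ModularCurve AlgebraicCurve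

namespace Fermat.Agent.Mazur

local notation "Qbar" => AlgebraicClosure ℚ

/-- Torsion of order prime to `ℓ` injects into the reduction. -/
theorem reductionInjective (N : ℕ) [NeZero N] : ReductionInjective N :=
  fun ℓ hℓ hℓN A hA m hm z hmz hz =>
    haveI : Fact ℓ.Prime := ⟨hℓ⟩
    S18.result N hℓN A hA (Red.reductionInputsModL A hℓN hA) m hm z hmz hz

/-- The Galois side of the torsion model. -/
theorem torsionGalois (N : ℕ) [NeZero N] (P : ℕ) : Attach.TorsionGalois N P :=
  Attach.torsionGalois_of_specialization N P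
    (EichlerShimura.specializationExists_of_genus_le N P (Hecke.heckeOperatorsCommuteBar (N := N))
      fun ℓ hℓ hℓN A hA =>
        haveI : Fact ℓ.Prime := ⟨hℓ⟩
        Red.genus_le A hℓN hA)

/-- The rank zero piece at prime level. -/
theorem rankZeroQuotient (N : ℕ) [NeZero N] (hN : N.Prime) (h11 : 11 ≤ N) (h13 : N ≠ 13) :
    RankZeroQuotient N := by
  have hR : ∀ ℓ : ℕ, ℓ.Prime → ¬ ℓ ∣ N → ∀ A : ValuationSubring Qbar, A.LiesOverPrime ℓ →
      ReductionInputsModL A N := fun ℓ hℓ hℓN A hA =>
    haveI : Fact ℓ.Prime := ⟨hℓ⟩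
    Red.reductionInputsModL A hℓN hA
  obtain ⟨P, hP, hPN, -, hcusp⟩ := exists_cuspClassAt N hN h11 h13 hR
  have : Fact P.Prime := ⟨hP⟩
  have : NeZero P := ⟨hP.ne_zero⟩
  exact rankZeroQuotient_of_inputs hN hPN (Attach.torsionModel N P) (torsionGalois N P)
    (rankTwoAction_latticeHecke hN) (heckePreservesKernel (N := N)) (reductionFacts_of_inputs N hR)
    (reductionInjective N) (unipotentInertia N hN hP hPN) hcusp (S17.result N hN (by omega))

end Fermat.Agent.Mazur
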